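import Mathlib
import Fermat.Agent.LT.H556.A0

/-!
# Row LT, tower T2, sub-leaf T2.07.17 (helper314): core lemmas in the vocabulary of A0

OFF-MAIN.  Imports Mathlib and `LT/H556/A0.lean` (byte-identical copy) only.

* `commute_inf_fin314`: an element supported at an infinite place commutes with an element
  supported at a finite place.
* `continuous_of_localAtInf314`: a family of elements supported at the infinite place `w` with
  continuous components is continuous.
* `sphere_sum_comm314`, `circle_sum_comm314`: the sphere (circle) mean of a finite sum of right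
  translates by elements supported at a finite place is the sum of the translated means.
-/

set_option autoImplicit false

open IsDedekindDomain NumberField
open Fermat.Agent.LT.H556.A0

noncomputable section

namespace Fermat.Agent.LT.T2.H314

variable {K : Type} [Field K] [NumberField K]

/-! ## 1. Components of products -/

/-- Extensionality for adeles. -/
theorem adl_ext314 {x y : Adl K} (h1 : ∀ w : InfinitePlace K, x.1 w = y.1 w)
    (h2 : ∀ v : HeightOneSpectrum (𝓞 K), x.2 v = y.2 v) : x = y :=
  Prod.ext (funext h1) (RestrictedProduct.ext _ _ h2)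

theorem add_fst314 (x y : Adl K) (w : InfinitePlace K) : (x + y).1 w = x.1 w + y.1 w := rfl

theorem mul_fst314 (x y : Adl K) (w : InfinitePlace K) : (x * y).1 w = x.1 w * y.1 w := rfl

theorem add_snd314 (x y : Adl K) (v : HeightOneSpectrum (𝓞 K)) :
    (x + y).2 v = x.2 v + y.2 v := rfl

theorem mul_snd314 (x y : Adl K) (v : HeightOneSpectrum (𝓞 K)) :
    (x * y).2 v = x.2 v * y.2 v := rfl

/-- The infinite component of a product of matrices. -/
theorem mul_inf314 (a b : Matrix (Fin 2) (Fin 2) (Adl K)) (w : InfinitePlace K) (i j : Fin 2) :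
    ((a * b) i j).1 w = ∑ k : Fin 2, (a i k).1 w * (b k j).1 w := by
  rw [Matrix.mul_apply]
  simp only [Fin.sum_univ_two, add_fst314, mul_fst314]

/-- The finite component of a product of matrices. -/
theorem mul_fin314 (a b : Matrix (Fin 2) (Fin 2) (Adl K)) (v : HeightOneSpectrum (𝓞 K))
    (i j : Fin 2) :
    ((a * b) i j).2 v = ∑ k : Fin 2, (a i k).2 v * (b k j).2 v := by
  rw [Matrix.mul_apply]
  simp only [Fin.sum_univ_two, add_snd314, mul_snd314]

/-- An element supported at an infinite place commutes with an element supported at a finite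
place. -/
theorem commute_inf_fin314 {w : InfinitePlace K} {v : HeightOneSpectrum (𝓞 K)} {y h : G K}
    (hy : IsLocalAtInf w y) (hh : IsLocalAtFin v h) : y * h = h * y := by
  apply Units.ext
  rw [Units.val_mul, Units.val_mul]
  ext i j : 2
  apply adl_ext314
  · intro w'
    rw [mul_inf314, mul_inf314]
    have h1 : ∀ a b : Fin 2, ((h : Matrix (Fin 2) (Fin 2) (Adl K)) a b).1 w'
        = (1 : Matrix (Fin 2) (Fin 2) w'.Completion) a b := hh.1 w'
    simp only [h1, Matrix.one_apply, mul_ite, mul_one, mul_zero, ite_mul, one_mul, zero_mul,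
      Finset.sum_ite_eq, Finset.sum_ite_eq', Finset.mem_univ, if_true]
  · intro v'
    rw [mul_fin314, mul_fin314]
    have h1 : ∀ a b : Fin 2, ((y : Matrix (Fin 2) (Fin 2) (Adl K)) a b).2 v'
        = (1 : Matrix (Fin 2) (Fin 2) (v'.adicCompletion K)) a b := fun a b =>
      congrFun (congrFun (hy.2 v') a) b
    simp only [h1, Matrix.one_apply, mul_ite, mul_one, mul_zero, ite_mul, one_mul, zero_mul,
      Finset.sum_ite_eq, Finset.sum_ite_eq', Finset.mem_univ, if_true]

/-! ## 2. Evaluation homomorphisms -/

/-- Evaluation of an adele at the infinite place `w`. -/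
def evInf314 (w : InfinitePlace K) : Adl K →+* w.Completion where
  toFun x := x.1 w
  map_one' := rfl
  map_mul' _ _ := rfl
  map_zero' := rfl
  map_add' _ _ := rfl

/-- Evaluation of an adele at the finite place `v`. -/
def evFin314 (v : HeightOneSpectrum (𝓞 K)) : Adl K →+* v.adicCompletion K where
  toFun x := x.2 v
  map_one' := rfl
  map_mul' _ _ := rfl
  map_zero' := rfl
  map_add' _ _ := rfl

/-- The component at `w`, transported to `ℂ`. -/
def infHom314 (w : InfinitePlace K) : Adl K →+* ℂ :=
  (InfinitePlace.Completion.extensionEmbedding w).comp (evInf314 w)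

theorem infComp_eq314 (w : InfinitePlace K) (g : G K) :
    infComp w g = ((Matrix.GeneralLinearGroup.map (infHom314 w) g : GL (Fin 2) ℂ) :
      Matrix (Fin 2) (Fin 2) ℂ) := by
  ext i j
  rfl

theorem trivAtInf_iff314 (w : InfinitePlace K) (g : G K) :
    TrivAtInf w g ↔ Matrix.GeneralLinearGroup.map (evInf314 w) g = 1 := by
  constructor
  · intro h
    exact Units.ext (Matrix.ext fun i j => h i j)
  · intro h i j
    have := congrArg (fun u : GL (Fin 2) w.Completion =>
      (u : Matrix (Fin 2) (Fin 2) w.Completion) i j) h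
    exact this

theorem trivAtFin_iff314 (v : HeightOneSpectrum (𝓞 K)) (g : G K) :
    TrivAtFin v g ↔ Matrix.GeneralLinearGroup.map (evFin314 v) g = 1 := by
  constructor
  · intro h
    exact Units.ext (Matrix.ext fun i j => congrFun (congrFun h i) j)
  · intro h
    refine Matrix.ext fun i j => ?_
    have := congrArg (fun u : GL (Fin 2) (v.adicCompletion K) =>
      (u : Matrix (Fin 2) (Fin 2) (v.adicCompletion K)) i j) h
    exact this

theorem trivAtInf_inv314 {w : InfinitePlace K} {g : G K} (h : TrivAtInf w g) :
    TrivAtInf w g⁻¹ := by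
  rw [trivAtInf_iff314] at h ⊢
  rw [map_inv, h, inv_one]

theorem trivAtFin_inv314 {v : HeightOneSpectrum (𝓞 K)} {g : G K} (h : TrivAtFin v g) :
    TrivAtFin v g⁻¹ := by
  rw [trivAtFin_iff314] at h ⊢
  rw [map_inv, h, inv_one]

theorem isLocalAtInf_inv314 {w : InfinitePlace K} {g : G K} (h : IsLocalAtInf w g) :
    IsLocalAtInf w g⁻¹ :=
  ⟨fun w' hw' => trivAtInf_inv314 (h.1 w' hw'), fun v => trivAtFin_inv314 (h.2 v)⟩

theorem infComp_inv314 (w : InfinitePlace K) (g : G K) :
    infComp w g⁻¹ = (infComp w g)⁻¹ := by
  rw [infComp_eq314, infComp_eq314, map_inv, Matrix.coe_units_inv]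

theorem infComp_det_ne_zero314 (w : InfinitePlace K) (g : G K) : (infComp w g).det ≠ 0 := by
  rw [infComp_eq314]
  exact (Matrix.GeneralLinearGroup.det_ne_zero _)

/-! ## 3. Continuity of local families -/

/-- A matrix-valued family which is the identity outside the infinite place `w` and has
continuous components at `w` is continuous. -/
theorem continuous_matrix_of_local314 (w : InfinitePlace K) {X : Type*} [TopologicalSpace X]
    (m : X → Matrix (Fin 2) (Fin 2) (Adl K))
    (h1 : ∀ x, ∀ w' : InfinitePlace K, w' ≠ w → ∀ i j,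
      (m x i j).1 w' = (1 : Matrix (Fin 2) (Fin 2) w'.Completion) i j)
    (h2 : ∀ x, ∀ v : HeightOneSpectrum (𝓞 K), ∀ i j,
      (m x i j).2 v = (1 : Matrix (Fin 2) (Fin 2) (v.adicCompletion K)) i j)
    (hc : ∀ i j, Continuous fun x =>
      InfinitePlace.Completion.extensionEmbedding w ((m x i j).1 w)) :
    Continuous m := by
  refine continuous_matrix fun i j => ?_
  have hfst : Continuous fun x => (m x i j).1 := by
    refine continuous_pi fun w' => ?_
    by_cases hw : w' = w
    · subst hw
      exact (InfinitePlace.Completion.isometry_extensionEmbedding w').isEmbedding.isInducing.continuous_iff.2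
        (hc i j)
    · have : (fun x => (m x i j).1 w') =
          fun _ => (1 : Matrix (Fin 2) (Fin 2) w'.Completion) i j := funext fun x => h1 x w' hw i j
      rw [this]
      exact continuous_const
  have hsnd : Continuous fun x => (m x i j).2 := by
    have : (fun x => (m x i j).2) =
        fun _ => ((1 : Matrix (Fin 2) (Fin 2) (Adl K)) i j).2 := by
      funext x
      apply RestrictedProduct.ext
      intro v
      refine (h2 x v i j).trans ?_
      by_cases hij : i = j
      · subst hij
        rw [Matrix.one_apply_eq, Matrix.one_apply_eq]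
        rfl
      · rw [Matrix.one_apply_ne hij, Matrix.one_apply_ne hij]
        rfl
    rw [this]
    exact continuous_const
  exact hfst.prodMk hsnd

/-- **Continuity of local families** (the statement of T2.07.30 in the vocabulary of A0):
a family of elements supported at the infinite place `w` with continuous components is
continuous. -/
theorem continuous_of_localAtInf314 (w : InfinitePlace K) {X : Type*} [TopologicalSpace X]
    (h : X → G K) (hloc : ∀ x, IsLocalAtInf w (h x))
    (hc : ∀ i j : Fin 2, Continuous fun x => infComp w (h x) i j) : Continuous h := by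
  refine Units.continuous_iff.2 ⟨?_, ?_⟩
  · exact continuous_matrix_of_local314 w (fun x => ((h x : G K) : Matrix (Fin 2) (Fin 2) (Adl K)))
      (fun x w' hw' i j => (hloc x).1 w' hw' i j)
      (fun x v i j => congrFun (congrFun ((hloc x).2 v) i) j) hc
  · refine continuous_matrix_of_local314 w
      (fun x => (((h x)⁻¹ : G K) : Matrix (Fin 2) (Fin 2) (Adl K)))
      (fun x w' hw' i j => (isLocalAtInf_inv314 (hloc x)).1 w' hw' i j)
      (fun x v i j => congrFun (congrFun ((isLocalAtInf_inv314 (hloc x)).2 v) i) j) ?_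
    intro i j
    have hM : Continuous fun x => infComp w (h x) := continuous_matrix hc
    have hinv : Continuous fun x => (infComp w (h x))⁻¹ := by
      rw [continuous_iff_continuousAt]
      intro x
      have hdet : (infComp w (h x)).det ≠ 0 := infComp_det_ne_zero314 w (h x)
      have h1 : ContinuousAt Ring.inverse (infComp w (h x)).det := by
        have := NormedRing.inverse_continuousAt (Units.mk0 _ hdet)
        simpa using this
      have h2 : ContinuousAt (fun A : Matrix (Fin 2) (Fin 2) ℂ => A⁻¹) (infComp w (h x)) :=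
        continuousAt_matrix_inv _ h1
      exact ContinuousAt.comp (g := fun A : Matrix (Fin 2) (Fin 2) ℂ => A⁻¹)
        (f := fun x => infComp w (h x)) h2 hM.continuousAt
    have : (fun x => infComp w (h x)⁻¹ i j) = fun x => (infComp w (h x))⁻¹ i j := by
      funext x
      rw [infComp_inv314]
    exact this ▸ (continuous_apply_apply i j).comp hinv

/-! ## 4. Continuity of the sphere and circle parametrisations -/

theorem continuous_rotZ314 : Continuous rotZ := by
  refine continuous_matrix fun i j => ?_
  fin_cases i <;> fin_cases j <;> simp [rotZ] <;> fun_prop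

theorem continuous_rotY314 : Continuous rotY := by
  refine continuous_matrix fun i j => ?_
  fin_cases i <;> fin_cases j <;> simp [rotY] <;> fun_prop

/-- The parametrisation of a sphere at `w` is jointly continuous. -/
theorem continuous_sphere314 {w : InfinitePlace K} {d : ℝ} {Y : ℝ → ℝ → G K}
    (hY : ∀ α β : ℝ, IsLocalAtInf w (Y α β) ∧ infComp w (Y α β) = rotZ α * rotY β * torus d) :
    Continuous fun p : ℝ × ℝ => Y p.1 p.2 := by
  refine continuous_of_localAtInf314 w _ (fun p => (hY p.1 p.2).1) fun i j => ?_
  have hm : Continuous fun p : ℝ × ℝ => rotZ p.1 * rotY p.2 * torus d :=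
    ((continuous_rotZ314.comp continuous_fst).matrix_mul
      (continuous_rotY314.comp continuous_snd)).matrix_mul continuous_const
  have : (fun p : ℝ × ℝ => infComp w (Y p.1 p.2) i j)
      = fun p : ℝ × ℝ => (rotZ p.1 * rotY p.2 * torus d) i j := by
    funext p
    rw [(hY p.1 p.2).2]
  rw [this]
  exact (continuous_apply_apply i j).comp hm

/-- The parametrisation of a circle at `w` is continuous. -/
theorem continuous_circle314 {w : InfinitePlace K} {t : ℝ} {Y : ℝ → G K}
    (hY : ∀ θ : ℝ, IsLocalAtInf w (Y θ) ∧ infComp w (Y θ) = rotY θ * torus t) :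
    Continuous Y := by
  refine continuous_of_localAtInf314 w _ (fun θ => (hY θ).1) fun i j => ?_
  have hm : Continuous fun θ : ℝ => rotY θ * torus t :=
    continuous_rotY314.matrix_mul continuous_const
  have : (fun θ : ℝ => infComp w (Y θ) i j) = fun θ : ℝ => (rotY θ * torus t) i j := by
    funext θ
    rw [(hY θ).2]
  rw [this]
  exact (continuous_apply_apply i j).comp hm

/-! ## 5. Means of finite sums of translates -/

/-- **Sphere means commute with finite sums of right translations by elements supported at a
finite place**: for `φ` continuous,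
`∫∫ (∑_h φ(g Y h)) sin β = ∑_h ∫∫ φ(g h Y) sin β`. -/
theorem sphere_sum_comm314 {w : InfinitePlace K} {d : ℝ} {Y : ℝ → ℝ → G K}
    (hY : ∀ α β : ℝ, IsLocalAtInf w (Y α β) ∧ infComp w (Y α β) = rotZ α * rotY β * torus d)
    {v : HeightOneSpectrum (𝓞 K)} (H : Finset (G K)) (hH : ∀ h ∈ H, IsLocalAtFin v h)
    {φ : G K → ℂ} (hφ : Continuous φ) (g : G K) :
    (∫ α in (0 : ℝ)..(2 * Real.pi), ∫ β in (0 : ℝ)..Real.pi,
        (∑ h ∈ H, φ (g * Y α β * h)) * ((Real.sin β : ℝ) : ℂ))
      = ∑ h ∈ H, ∫ α in (0 : ℝ)..(2 * Real.pi), ∫ β in (0 : ℝ)..Real.pi,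
          φ (g * h * Y α β) * ((Real.sin β : ℝ) : ℂ) := by
  have hYc := continuous_sphere314 hY
  have e1 : ∀ α β : ℝ, (∑ h ∈ H, φ (g * Y α β * h)) * ((Real.sin β : ℝ) : ℂ)
      = ∑ h ∈ H, φ (g * h * Y α β) * ((Real.sin β : ℝ) : ℂ) := by
    intro α β
    rw [Finset.sum_mul]
    refine Finset.sum_congr rfl fun h hh => ?_
    rw [mul_assoc g, commute_inf_fin314 (hY α β).1 (hH h hh), ← mul_assoc]
  have hYα : ∀ α : ℝ, Continuous fun β : ℝ => Y α β := fun α =>
    hYc.comp (Continuous.prodMk_right α)
  have hFp : ∀ h : G K, Continuous fun p : ℝ × ℝ =>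
      φ (g * h * Y p.1 p.2) * ((Real.sin p.2 : ℝ) : ℂ) := by
    intro h
    have h1 : Continuous fun p : ℝ × ℝ => φ (g * h * Y p.1 p.2) :=
      hφ.comp (continuous_const.mul hYc)
    have h2 : Continuous fun p : ℝ × ℝ => ((Real.sin p.2 : ℝ) : ℂ) :=
      Complex.continuous_ofReal.comp (Real.continuous_sin.comp continuous_snd)
    exact h1.mul h2
  have hin : ∀ (h : G K) (α : ℝ), Continuous fun β : ℝ =>
      φ (g * h * Y α β) * ((Real.sin β : ℝ) : ℂ) := by
    intro h α
    have h1 : Continuous fun β : ℝ => φ (g * h * Y α β) :=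
      hφ.comp (continuous_const.mul (hYα α))
    have h2 : Continuous fun β : ℝ => ((Real.sin β : ℝ) : ℂ) :=
      Complex.continuous_ofReal.comp Real.continuous_sin
    exact h1.mul h2
  have hout : ∀ h : G K, Continuous fun α : ℝ => ∫ β in (0 : ℝ)..Real.pi,
      φ (g * h * Y α β) * ((Real.sin β : ℝ) : ℂ) := by
    intro h
    have hu : Continuous (Function.uncurry fun α β : ℝ =>
        φ (g * h * Y α β) * ((Real.sin β : ℝ) : ℂ)) := hFp h
    exact intervalIntegral.continuous_parametric_intervalIntegral_of_continuous' hu 0 Real.pi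
  simp only [e1]
  have e2 : ∀ α : ℝ, (∫ β in (0 : ℝ)..Real.pi,
      ∑ h ∈ H, φ (g * h * Y α β) * ((Real.sin β : ℝ) : ℂ))
      = ∑ h ∈ H, ∫ β in (0 : ℝ)..Real.pi, φ (g * h * Y α β) * ((Real.sin β : ℝ) : ℂ) := by
    intro α
    exact intervalIntegral.integral_finsetSum fun h _ => (hin h α).intervalIntegrable _ _
  simp only [e2]
  exact intervalIntegral.integral_finsetSum fun h _ => (hout h).intervalIntegrable _ _

/-- **Circle means commute with finite sums of right translations by elements supported at a
finite place.** -/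
theorem circle_sum_comm314 {w : InfinitePlace K} {t : ℝ} {Y : ℝ → G K}
    (hY : ∀ θ : ℝ, IsLocalAtInf w (Y θ) ∧ infComp w (Y θ) = rotY θ * torus t)
    {v : HeightOneSpectrum (𝓞 K)} (H : Finset (G K)) (hH : ∀ h ∈ H, IsLocalAtFin v h)
    {φ : G K → ℂ} (hφ : Continuous φ) (g : G K) :
    (∫ θ in (0 : ℝ)..(2 * Real.pi), ∑ h ∈ H, φ (g * Y θ * h))
      = ∑ h ∈ H, ∫ θ in (0 : ℝ)..(2 * Real.pi), φ (g * h * Y θ) := by
  have hYc := continuous_circle314 hY
  have e1 : ∀ θ : ℝ, (∑ h ∈ H, φ (g * Y θ * h)) = ∑ h ∈ H, φ (g * h * Y θ) := by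
    intro θ
    refine Finset.sum_congr rfl fun h hh => ?_
    rw [mul_assoc g, commute_inf_fin314 (hY θ).1 (hH h hh), ← mul_assoc]
  simp only [e1]
  refine intervalIntegral.integral_finsetSum fun h _ => ?_
  exact (hφ.comp (continuous_const.mul hYc)).intervalIntegrable _ _

end Fermat.Agent.LT.T2.H314

end
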