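import Mathlib
import Fermat.Agent.LT.T2.H429.OpsSpec
import Fermat.Agent.LT.T2.H314.CommCore

/-!
# Row LT, tower T2, sub-leaf T2.07.17 `SubCommMeanHecke429` (helper314, registry row 1012)

OFF-MAIN.  Sub-spec: `LT/T2/H429/OpsSpec.lean` of helper429 (byte-identical copy, with its
copies of `LT/H556/A0.lean`, `LT/T1/Spec.lean`, `LT/T2/Spec.lean`).

`subCommMeanHecke314 K : SubCommMeanHecke429 K` VERBATIM and UNCONDITIONAL: the sphere and the
circle means commute with the Hecke sums on the cusp functions.  Only the continuity of the cusp
function and `IsLocalAtFin v h` for the elements of the coset system are used: the elements at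
an infinite place commute with the elements at a finite place (`commute_inf_fin314`), the
parametrisations of spheres and circles are continuous (`continuous_sphere314`,
`continuous_circle314`; no use of the sub-leaf T2.07.30), and the integral of a finite sum of
continuous functions is the sum of the integrals.

Also `commSphereHecke314`, `commCircleHecke314`: the same on ALL continuous functions, and the
SPARE `subLocCont314 K : SubLocCont429 K` (T2.07.30, verbatim; owner helper472: use or ignore).
-/

set_option autoImplicit false

open IsDedekindDomain NumberField MeasureTheory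
open Fermat.Agent.LT.H556.A0
open Fermat.Agent.LT.T2

noncomputable section

namespace Fermat.Agent.LT.T2.H314

variable {K : Type} [Field K] [NumberField K]

/-- A sphere mean commutes with a sum of right translations by elements supported at a finite
place, on every continuous function. -/
theorem commSphereHecke314 {w : InfinitePlace K} {d : ℝ} {Y : ℝ → ℝ → G K}
    (hY : IsSphereAt w d Y) {v : HeightOneSpectrum (𝓞 K)} (H : Finset (G K))
    (hH : ∀ h ∈ H, IsLocalAtFin v h) {φ : G K → ℂ} (hφ : Continuous φ) :
    sphereMean Y (heckeSum H φ) = heckeSum H (sphereMean Y φ) := by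
  funext g
  exact sphere_sum_comm314 hY H hH hφ g

/-- A circle mean commutes with a sum of right translations by elements supported at a finite
place, on every continuous function. -/
theorem commCircleHecke314 {w : InfinitePlace K} {t : ℝ} {Y : ℝ → G K}
    (hY : IsCircleAt w t Y) {v : HeightOneSpectrum (𝓞 K)} (H : Finset (G K))
    (hH : ∀ h ∈ H, IsLocalAtFin v h) {φ : G K → ℂ} (hφ : Continuous φ) :
    circleMean Y (heckeSum H φ) = heckeSum H (circleMean Y φ) := by
  funext g
  exact circle_sum_comm314 hY H hH hφ g

/-- **T2.07.17** `SubCommMeanHecke429`, VERBATIM. -/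
theorem subCommMeanHecke314 (K : Type) [Field K] [NumberField K] :
    H429.SubCommMeanHecke429 K := by
  intro 𝔫 _ v _ H hH
  have hloc : ∀ h ∈ H, IsLocalAtFin v h := fun h hh => (hH.2.1 h hh).1
  refine ⟨?_, ?_⟩
  · intro w _ d _ Y hY φ hφ
    exact commSphereHecke314 hY H hloc hφ.cont
  · intro w _ t _ Y hY φ hφ
    exact commCircleHecke314 hY H hloc hφ.cont

/-- **T2.07.30** `SubLocCont429`, VERBATIM (spare). -/
theorem subLocCont314 (K : Type) [Field K] [NumberField K] : H429.SubLocCont429 K :=
  fun w _ _ h hloc hc => continuous_of_localAtInf314 w h hloc hc

end Fermat.Agent.LT.T2.H314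

end
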